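/-
S41 / [CHEB-PP], analytic half (helper46).

`L/K` Galois extension of number fields of prime degree `p`, `E` a finite set of primes of `K`:
there is a prime `Q ∉ E` of `K` of absolute degree one which is inert in `L`.

Only landed S14 files are imported (read-only): `Split27.inert_density`,
`Euler23.exists_bound_tsum_pN`, `DensWire27.e2Hyp`.
-/
import Mathlib
import Fermat.Agent.S14.DensFinal27

set_option autoImplicit false

namespace Fermat.Agent.S41.Cheb46

open NumberField Ideal IsDedekindDomain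
open Fermat.Agent.S14 Fermat.Agent.S14.Split27

variable {K L : Type} [Field K] [NumberField K] [Field L] [NumberField L] [Algebra K L]
  [IsGalois K L] {p : ℕ} [hp : Fact p.Prime]

/-- `log (1/(s-1))` is unbounded on `(1,2]`. -/
theorem exists_log_gt (B : ℝ) : ∃ s : ℝ, 1 < s ∧ s ≤ 2 ∧ B < Real.log (1 / (s - 1)) := by
  refine ⟨1 + Real.exp (-(|B| + 1)), by linarith [Real.exp_pos (-(|B| + 1))], ?_, ?_⟩
  · have : Real.exp (-(|B| + 1)) ≤ 1 := by
      rw [Real.exp_le_one_iff]; linarith [abs_nonneg B]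
    linarith
  · have : (1 + Real.exp (-(|B| + 1)) - 1) = Real.exp (-(|B| + 1)) := by ring
    rw [this, one_div, Real.log_inv, Real.log_exp]
    linarith [le_abs_self B]

/-- **[CHEB-PP], analytic half.** There is an inert prime of absolute degree one outside any
finite set of primes. -/
theorem exists_inert_degree_one (hdeg : Module.finrank K L = p)
    (E : Set (HeightOneSpectrum (𝓞 K))) (hE : E.Finite) :
    ∃ Q : HeightOneSpectrum (𝓞 K),
      Q ∈ inertSet K L ∧ (absNorm Q.asIdeal).Prime ∧ Q ∉ E := by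
  classical
  by_contra hcon
  push Not at hcon
  have hpp : p.Prime := hp.out
  -- E3 for `K` and `L`
  obtain ⟨CK, hCK⟩ := Euler23.exists_bound_tsum_pN K
  obtain ⟨CL, hCL⟩ := Euler23.exists_bound_tsum_pN L
  have hK : ∃ C : ℝ, ∀ s : ℝ, 1 < s → s ≤ 2 →
      Summable (nrmPow K s) ∧ Real.log (1 / (s - 1)) - C ≤ ∑' Q, nrmPow K s Q := by
    refine ⟨CK, fun s hs1 hs2 => ⟨Euler23.summable_pN hs1, ?_⟩⟩
    have := (abs_le.mp (hCK s hs1 hs2)).1
    have h2 : ∑' Q : HeightOneSpectrum (𝓞 K), Euler23.pN Q s = ∑' Q, nrmPow K s Q := rfl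
    linarith
  have hL : ∃ C : ℝ, ∀ s : ℝ, 1 < s → s ≤ 2 →
      Summable (nrmPow L s) ∧ ∑' P, nrmPow L s P ≤ Real.log (1 / (s - 1)) + C := by
    refine ⟨CL, fun s hs1 hs2 => ⟨Euler23.summable_pN hs1, ?_⟩⟩
    have := (abs_le.mp (hCL s hs1 hs2)).2
    have h2 : ∑' Q : HeightOneSpectrum (𝓞 L), Euler23.pN Q s = ∑' Q, nrmPow L s Q := rfl
    linarith
  obtain ⟨C1, hC1⟩ := inert_density hdeg hK hL
  obtain ⟨C2, hC2⟩ := DensWire27.e2Hyp K
  obtain ⟨CK', hCK'⟩ := hK
  -- choose `s` with `(1 - 1/p) log (1/(s-1)) > C1 + C2 + #E`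
  have hc : (0 : ℝ) < 1 - 1 / (p : ℝ) := by
    have h2 : (2 : ℝ) ≤ p := by exact_mod_cast hpp.two_le
    have : 1 / (p : ℝ) ≤ 1 / 2 := by
      apply one_div_le_one_div_of_le <;> linarith
    linarith
  obtain ⟨s, hs1, hs2, hs⟩ := exists_log_gt ((C1 + C2 + (E.ncard : ℝ)) / (1 - 1 / (p : ℝ)))
  have hs0 : (0 : ℝ) ≤ s := by linarith
  obtain ⟨hsK, -⟩ := hCK' s hs1 hs2
  set f := nrmPow K s with hf
  have hf0 : ∀ Q, 0 ≤ f Q := nrmPow_nonneg K s
  have hpt : ∀ Q, (inertSet K L).indicator f Q ≤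
      (degGeTwoSet K).indicator f Q + E.indicator f Q := by
    intro Q
    have n2 := Set.indicator_nonneg (s := degGeTwoSet K) (fun a _ => hf0 a) Q
    have n3 := Set.indicator_nonneg (s := E) (fun a _ => hf0 a) Q
    by_cases hin : Q ∈ inertSet K L
    · rw [Set.indicator_of_mem hin]
      by_cases h1 : (absNorm Q.asIdeal).Prime
      · have : Q ∈ E := hcon Q hin h1
        rw [Set.indicator_of_mem this]; linarith
      · have : Q ∈ degGeTwoSet K := h1
        rw [Set.indicator_of_mem this]; linarith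
    · rw [Set.indicator_of_notMem hin]; linarith
  have hs2' : Summable ((degGeTwoSet K).indicator f) := hsK.indicator _
  have hs3' : Summable (E.indicator f) := hsK.indicator _
  have hs0' : Summable ((inertSet K L).indicator f) := hsK.indicator _
  have hsum : ∑' Q, (inertSet K L).indicator f Q ≤
      ∑' Q, (degGeTwoSet K).indicator f Q + ∑' Q, E.indicator f Q := by
    rw [← (hs2'.tsum_add hs3')]
    exact hs0'.tsum_le_tsum hpt (hs2'.add hs3')
  have hb3 := tsum_indicator_le_ncard K hs0 hE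
  have hb2 := hC2 s hs1 hs2
  have hb1 := hC1 s hs1 hs2
  rw [tsum_subtype (degGeTwoSet K) f] at hb2
  rw [tsum_subtype (inertSet K L) f] at hb1
  have hkey : (C1 + C2 + (E.ncard : ℝ)) < (1 - 1 / (p : ℝ)) * Real.log (1 / (s - 1)) := by
    rw [div_lt_iff₀ hc] at hs
    linarith
  linarith

end Fermat.Agent.S41.Cheb46
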