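/-
S41 / [CHEB-PP], algebraic half (helper46).

`L/K` Galois extension of number fields with cyclic Galois group of prime-power order `r^k`,
`k ≥ 1`.  Outside any finite set of primes of `K` there is a prime `Q` of absolute degree one and
a prime `P` of `L` over `Q` with a Frobenius element at `P` which GENERATES `Gal(L/K)`.
-/
import Mathlib
import Fermat.Agent.S41.Cheb46.InertExists

set_option autoImplicit false

namespace Fermat.Agent.S41.Cheb46

open NumberField Ideal IsDedekindDomain IntermediateField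
open Fermat.Agent.S14 Fermat.Agent.S14.Split27

/-- In a cyclic group of order `r^k` generated by `g`, an element outside `⟨g^r⟩` is a generator. -/
theorem zpowers_eq_top_of_not_mem_pow {G : Type*} [Group G] [Finite G] {r k : ℕ} (hr : r.Prime)
    {g : G} (hg : ∀ x, x ∈ Subgroup.zpowers g) (hcard : Nat.card G = r ^ k)
    {τ : G} (hτ : τ ∉ Subgroup.zpowers (g ^ r)) : Subgroup.zpowers τ = ⊤ := by
  have hord : orderOf g = r ^ k := by
    rw [orderOf_eq_card_of_forall_mem_zpowers hg, hcard]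
  obtain ⟨m, rfl⟩ : ∃ m : ℕ, g ^ m = τ := by
    have := hg τ
    rwa [← mem_powers_iff_mem_zpowers, Submonoid.mem_powers_iff] at this
  have hrm : ¬ r ∣ m := by
    rintro ⟨j, rfl⟩
    apply hτ
    rw [pow_mul]
    exact Subgroup.pow_mem _ (Subgroup.mem_zpowers _) _
  have hcop : (orderOf g).Coprime m := by
    rw [hord]
    exact Nat.Coprime.pow_left k ((Nat.Prime.coprime_iff_not_dvd hr).mpr hrm)
  have h1 : orderOf (g ^ m) = Nat.card G := by
    rw [hcop.orderOf_pow, hord, hcard]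
  apply Subgroup.eq_top_of_card_eq
  rw [Nat.card_zpowers, h1]

/-- The subgroup `⟨g^r⟩` of a cyclic group of order `r^k`, `k ≥ 1`, has index `r`. -/
theorem index_zpowers_pow {G : Type*} [Group G] [Finite G] {r k : ℕ} (hr : r.Prime) (hk : 0 < k)
    {g : G} (hg : ∀ x, x ∈ Subgroup.zpowers g) (hcard : Nat.card G = r ^ k) :
    (Subgroup.zpowers (g ^ r)).index = r := by
  have hord : orderOf g = r ^ k := by
    rw [orderOf_eq_card_of_forall_mem_zpowers hg, hcard]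
  have hgcd : Nat.gcd (r ^ k) r = r := by
    apply Nat.gcd_eq_right
    exact dvd_pow_self r hk.ne'
  have hc : Nat.card (Subgroup.zpowers (g ^ r)) = r ^ (k - 1) := by
    rw [Nat.card_zpowers, orderOf_pow' g hr.ne_zero, hord, hgcd]
    obtain ⟨j, rfl⟩ : ∃ j, k = j + 1 := ⟨k - 1, by omega⟩
    rw [pow_succ, Nat.mul_div_cancel _ hr.pos]
    simp
  have h := (Subgroup.zpowers (g ^ r)).index_mul_card
  rw [hc, hcard] at h
  obtain ⟨j, rfl⟩ : ∃ j, k = j + 1 := ⟨k - 1, by omega⟩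
  have hpos : 0 < r ^ j := pow_pos hr.pos j
  simp only [Nat.add_sub_cancel] at h
  rw [pow_succ, mul_comm (r ^ j) r] at h
  exact Nat.eq_of_mul_eq_mul_right hpos h

variable {K L : Type} [Field K] [NumberField K] [Field L] [NumberField L] [Algebra K L]
  [IsGalois K L]

/-- **[CHEB-PP], relative form.** -/
theorem exists_frob_generator {r k : ℕ} (hr : r.Prime) (hk : 0 < k)
    {g : L ≃ₐ[K] L} (hg : ∀ x, x ∈ Subgroup.zpowers g) (hcard : Nat.card (L ≃ₐ[K] L) = r ^ k)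
    (E : Set (HeightOneSpectrum (𝓞 K))) (hE : E.Finite) :
    ∃ (Q : HeightOneSpectrum (𝓞 K)) (P : Ideal (𝓞 L)) (τ : L ≃ₐ[K] L),
      Q ∉ E ∧ (absNorm Q.asIdeal).Prime ∧ P.IsPrime ∧ P.LiesOver Q.asIdeal ∧
      IsArithFrobAt (𝓞 K) τ P ∧ Subgroup.zpowers τ = ⊤ := by
  classical
  have hfr : Fact r.Prime := ⟨hr⟩
  have hGG : IsGaloisGroup (L ≃ₐ[K] L) (𝓞 K) (𝓞 L) := IsGaloisGroup.of_isFractionRing _ _ _ K L
  have hcyc : IsCyclic (L ≃ₐ[K] L) := ⟨g, hg⟩
  have hcomm : ∀ a b : (L ≃ₐ[K] L), a * b = b * a := (IsCyclic.isMulCommutative).is_comm.comm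
  set H : Subgroup (L ≃ₐ[K] L) := Subgroup.zpowers (g ^ r) with hH
  have hHn : H.Normal := ⟨fun n hn x => by rw [hcomm x n, mul_inv_cancel_right]; exact hn⟩
  set F : IntermediateField K L := fixedField H with hF
  have hdeg : Module.finrank K F = r := by
    rw [IntermediateField.finrank_eq_fixingSubgroup_index, hF, fixingSubgroup_fixedField, hH]
    exact index_zpowers_pow hr hk hg hcard
  obtain ⟨Q, hQin, hQ1, hQE⟩ := exists_inert_degree_one (K := K) (L := F) (p := r) hdeg E hE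
  have hQp : Q.asIdeal.IsPrime := Q.isPrime
  obtain ⟨⟨P, hPprime, hPover⟩⟩ := Q.asIdeal.nonempty_primesOver (S := 𝓞 L)
  have hPp := hPprime
  have hP0 : P ≠ ⊥ := Ideal.ne_bot_of_liesOver_of_ne_bot Q.ne_bot P
  have hfinq : Finite (𝓞 L ⧸ P) := Ideal.finiteQuotientOfFreeOfNeBot P hP0
  obtain ⟨τ, hτ⟩ := IsArithFrobAt.exists_of_isInvariant (𝓞 K) (L ≃ₐ[K] L) P
  refine ⟨Q, P, τ, hQE, hQ1, hPprime, hPover, hτ, ?_⟩
  apply zpowers_eq_top_of_not_mem_pow hr hg hcard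
  intro hτH
  set ℓ := absNorm Q.asIdeal with hℓ
  have hℓ2 : 1 < ℓ := hQ1.one_lt
  have hunder : P.under (𝓞 K) = Q.asIdeal := hPover.over.symm
  have hcardq : Nat.card (𝓞 K ⧸ P.under (𝓞 K)) = ℓ := by
    rw [hunder]; rfl
  -- `τ` fixes `𝓞 F`
  have hfix : ∀ y : 𝓞 F, τ • (algebraMap (𝓞 F) (𝓞 L) y) = algebraMap (𝓞 F) (𝓞 L) y := by
    intro y
    apply RingOfIntegers.ext
    show τ ((algebraMap (𝓞 F) (𝓞 L) y : 𝓞 L) : L) = _
    have hy : ((algebraMap (𝓞 F) (𝓞 L) y : 𝓞 L) : L) = ((y : F) : L) := rfl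
    rw [hy]
    exact (IntermediateField.mem_fixedField_iff H _).mp (y : F).2 τ hτH
  -- the prime of `F` below `P`
  set 𝔮 := Q.asIdeal.map (algebraMap (𝓞 K) (𝓞 F)) with h𝔮
  have h𝔮prime : 𝔮.IsPrime := hQin
  have h𝔮le : 𝔮 ≤ P.comap (algebraMap (𝓞 F) (𝓞 L)) := by
    rw [h𝔮, Ideal.map_le_iff_le_comap, Ideal.comap_comap]
    intro a ha
    rw [Ideal.mem_comap, ← IsScalarTower.algebraMap_eq]
    have : a ∈ P.under (𝓞 K) := by rw [hunder]; exact ha
    exact this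
  have h𝔮0 : 𝔮 ≠ ⊥ := by
    rw [h𝔮, Ne, Ideal.map_eq_bot_iff_of_injective (FaithfulSMul.algebraMap_injective (𝓞 K) (𝓞 F))]
    exact Q.ne_bot
  have h𝔮max : 𝔮.IsMaximal := h𝔮prime.isMaximal h𝔮0
  have h𝔮eq : 𝔮 = P.comap (algebraMap (𝓞 F) (𝓞 L)) :=
    h𝔮max.eq_of_le (Ideal.IsPrime.ne_top (Ideal.comap_isPrime _ P)) h𝔮le
  have hpow : ∀ y : 𝓞 F, y ^ ℓ - y ∈ 𝔮 := by
    intro y
    rw [h𝔮eq, Ideal.mem_comap, map_sub, map_pow]
    have h1 := hτ (algebraMap (𝓞 F) (𝓞 L) y)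
    rw [hcardq] at h1
    have h2 : (MulSemiringAction.toAlgHom (𝓞 K) (𝓞 L) τ) (algebraMap (𝓞 F) (𝓞 L) y) =
        algebraMap (𝓞 F) (𝓞 L) y := hfix y
    rw [h2] at h1
    have h3 := P.neg_mem h1
    rwa [neg_sub] at h3
  have hnorm : absNorm 𝔮 = ℓ ^ r := by
    rw [h𝔮, Ideal.absNorm_algebraMap, ← IsFractionRing.finrank_eq (𝓞 K) K (𝓞 F) F, hdeg]
  -- the residue field has at most `ℓ` elements
  let _i1 : Field (𝓞 F ⧸ 𝔮) := Ideal.Quotient.field 𝔮
  have hfin : Finite (𝓞 F ⧸ 𝔮) := Ideal.finiteQuotientOfFreeOfNeBot 𝔮 h𝔮0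
  let _i2 : Fintype (𝓞 F ⧸ 𝔮) := Fintype.ofFinite _
  have hroot : ∀ z : 𝓞 F ⧸ 𝔮, z ^ ℓ = z := by
    intro z
    obtain ⟨y, rfl⟩ := Ideal.Quotient.mk_surjective z
    rw [← map_pow, Ideal.Quotient.eq]
    exact hpow y
  have hle : Fintype.card (𝓞 F ⧸ 𝔮) ≤ ℓ := by
    have hsub : (Finset.univ : Finset (𝓞 F ⧸ 𝔮)).val ⊆
        (Polynomial.X ^ ℓ - Polynomial.X : Polynomial (𝓞 F ⧸ 𝔮)).roots := by
      intro z _
      rw [Polynomial.mem_roots (FiniteField.X_pow_card_sub_X_ne_zero _ hℓ2)]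
      simp [hroot z]
    have := Polynomial.card_le_degree_of_subset_roots hsub
    rwa [FiniteField.X_pow_card_sub_X_natDegree_eq _ hℓ2, Finset.card_univ] at this
  have hcard' : Fintype.card (𝓞 F ⧸ 𝔮) = ℓ ^ r := by
    rw [← hnorm, ← Nat.card_eq_fintype_card]; rfl
  rw [hcard'] at hle
  have hr2 : 2 ≤ r := hr.two_le
  have : ℓ ^ 1 < ℓ ^ r := Nat.pow_lt_pow_right hℓ2 (by omega)
  rw [pow_one] at this
  omega

end Fermat.Agent.S41.Cheb46
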