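/-
S41 / [CHEB-PP], absolute form (helper46).

`L/ℚ` a finite Galois extension (a number field), `σ ∈ Gal(L/ℚ)` of prime-power order `r^k`,
`k ≥ 1`, `S` a finite set of natural numbers.  There are a rational prime `ℓ ∉ S`, a prime `𝔏` of
`𝓞 L` above `ℓ` and `τ ∈ Gal(L/ℚ)` with `τ x ≡ x^ℓ (mod 𝔏)` for all `x ∈ 𝓞 L` (a Frobenius element
at `𝔏`) such that `⟨τ⟩ = ⟨σ⟩`.
-/
import Mathlib
import Fermat.Agent.S41.Cheb46.FrobGen

set_option autoImplicit false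

namespace Fermat.Agent.S41.Cheb46

open NumberField Ideal IsDedekindDomain IntermediateField
open Fermat.Agent.S14 Fermat.Agent.S14.Split27

variable {L : Type} [Field L] [NumberField L] [IsGalois ℚ L]

/-- Restriction of scalars `Gal(L/K) → Gal(L/ℚ)` as a monoid homomorphism. -/
noncomputable def resQ (K : IntermediateField ℚ L) : (L ≃ₐ[K] L) →* (L ≃ₐ[ℚ] L) where
  toFun x := x.restrictScalars ℚ
  map_one' := rfl
  map_mul' _ _ := rfl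

omit [IsGalois ℚ L] in
theorem resQ_apply (K : IntermediateField ℚ L) (x : L ≃ₐ[K] L) (y : L) : resQ K x y = x y := rfl

/-- **[CHEB-PP], absolute form.** -/
theorem exists_frob_generates_zpowers (σ : L ≃ₐ[ℚ] L) {r k : ℕ} (hr : r.Prime) (hk : 0 < k)
    (hσ : orderOf σ = r ^ k) (S : Finset ℕ) :
    ∃ (ℓ : ℕ) (𝔏 : Ideal (𝓞 L)) (τ : L ≃ₐ[ℚ] L),
      ℓ.Prime ∧ ℓ ∉ S ∧ 𝔏.IsPrime ∧ (ℓ : 𝓞 L) ∈ 𝔏 ∧
      (∀ x : 𝓞 L, τ • x - x ^ ℓ ∈ 𝔏) ∧ Subgroup.zpowers τ = Subgroup.zpowers σ := by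
  classical
  set H : Subgroup (L ≃ₐ[ℚ] L) := Subgroup.zpowers σ with hH
  set K : IntermediateField ℚ L := fixedField H with hK
  let e : H ≃* (L ≃ₐ[K] L) := IntermediateField.subgroupEquivAlgEquiv H
  set g : L ≃ₐ[K] L := e ⟨σ, Subgroup.mem_zpowers σ⟩ with hgdef
  have hres : ∀ y : H, resQ K (e y) = y.1 := by
    intro y
    ext z
    rfl
  have hg : ∀ x, x ∈ Subgroup.zpowers g := by
    intro x
    obtain ⟨y, rfl⟩ := e.surjective x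
    obtain ⟨n, hn⟩ := Subgroup.mem_zpowers_iff.mp y.2
    refine Subgroup.mem_zpowers_iff.mpr ⟨n, ?_⟩
    rw [hgdef, ← map_zpow]
    congr 1
    exact Subtype.ext hn
  have hcard : Nat.card (L ≃ₐ[K] L) = r ^ k := by
    rw [← Nat.card_congr e.toEquiv, hH, Nat.card_zpowers, hσ]
  -- excluded primes
  set E : Set (HeightOneSpectrum (𝓞 K)) :=
    ⋃ s ∈ (S.filter (· ≠ 0)), {Q | ((s : ℕ) : 𝓞 K) ∈ Q.asIdeal} with hE
  have hEfin : E.Finite := by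
    rw [hE]
    refine Set.Finite.biUnion (Finset.finite_toSet _) ?_
    intro s hs
    have hs0 : s ≠ 0 := (Finset.mem_filter.mp hs).2
    exact finite_setOf_mem K (x := ((s : ℕ) : 𝓞 K)) (by exact_mod_cast hs0)
  obtain ⟨Q, P, τ, hQE, hQ1, hPprime, hPover, hτ, hτtop⟩ :=
    exists_frob_generator (K := K) (L := L) hr hk hg hcard E hEfin
  set ℓ := absNorm Q.asIdeal with hℓ
  have hunder : P.under (𝓞 K) = Q.asIdeal := hPover.over.symm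
  have hcardq : Nat.card (𝓞 K ⧸ P.under (𝓞 K)) = ℓ := by
    rw [hunder]; rfl
  have hℓQ : ((ℓ : ℕ) : 𝓞 K) ∈ Q.asIdeal := Ideal.absNorm_mem Q.asIdeal
  refine ⟨ℓ, P, resQ K τ, hQ1, ?_, hPprime, ?_, ?_, ?_⟩
  · intro hℓS
    apply hQE
    rw [hE]
    simp only [Set.mem_iUnion, Set.mem_ofPred_eq]
    exact ⟨ℓ, Finset.mem_coe.mpr (Finset.mem_filter.mpr ⟨hℓS, hQ1.ne_zero⟩), hℓQ⟩
  · have h1 : ((ℓ : ℕ) : 𝓞 K) ∈ P.under (𝓞 K) := by rw [hunder]; exact hℓQ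
    have h2 : algebraMap (𝓞 K) (𝓞 L) ((ℓ : ℕ) : 𝓞 K) ∈ P := h1
    rwa [map_natCast] at h2
  · intro x
    have h1 := hτ x
    rw [hcardq] at h1
    exact h1
  · apply le_antisymm
    · rw [Subgroup.zpowers_le]
      have h1 : resQ K τ = ((e.symm τ : H) : L ≃ₐ[ℚ] L) := by
        rw [← hres (e.symm τ), MulEquiv.apply_symm_apply]
      rw [h1]
      exact (e.symm τ).2
    · rw [Subgroup.zpowers_le]
      have h1 : g ∈ Subgroup.zpowers τ := by rw [hτtop]; trivial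
      obtain ⟨n, hn⟩ := Subgroup.mem_zpowers_iff.mp h1
      have h2 : resQ K g = σ := hres ⟨σ, Subgroup.mem_zpowers σ⟩
      rw [← h2, ← hn, map_zpow]
      exact Subgroup.zpow_mem_zpowers _ n

omit [IsGalois ℚ L] in
/-- At a prime `𝔏` of `𝓞 L` over a rational prime `ℓ ∤ discr L`, a Frobenius element is unique. -/
theorem frob_unique {ℓ : ℕ} (hℓ : ℓ.Prime) (hdisc : ¬ (ℓ : ℤ) ∣ NumberField.discr L)
    {𝔏 : Ideal (𝓞 L)} (h𝔏 : 𝔏.IsPrime) (hℓ𝔏 : (ℓ : 𝓞 L) ∈ 𝔏) {τ τ' : L ≃ₐ[ℚ] L}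
    (hτ : ∀ x : 𝓞 L, τ • x - x ^ ℓ ∈ 𝔏) (hτ' : ∀ x : 𝓞 L, τ' • x - x ^ ℓ ∈ 𝔏) : τ' = τ := by
  have hpZ : Prime (ℓ : ℤ) := Nat.prime_iff_prime_int.mp hℓ
  have hunr : Algebra.IsUnramifiedAt ℤ 𝔏 :=
    (NumberField.not_dvd_discr_iff_forall_mem L (𝓞 L) hpZ).mp hdisc 𝔏 h𝔏 (by exact_mod_cast hℓ𝔏)
  have hover : 𝔏.LiesOver (Ideal.span {(ℓ : ℤ)}) :=
    (Ideal.liesOver_span_iff h𝔏.ne_top hpZ).mpr (by exact_mod_cast hℓ𝔏)
  have hcard : Nat.card (ℤ ⧸ 𝔏.under ℤ) = ℓ := by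
    rw [← hover.over]
    rw [Nat.card_congr (Int.quotientSpanNatEquivZMod ℓ).toEquiv, Nat.card_zmod]
  have H : (MulSemiringAction.toAlgHom ℤ (𝓞 L) τ).IsArithFrobAt 𝔏 := by
    intro x
    rw [hcard]
    exact hτ x
  have H' : (MulSemiringAction.toAlgHom ℤ (𝓞 L) τ').IsArithFrobAt 𝔏 := by
    intro x
    rw [hcard]
    exact hτ' x
  have heq := H'.eq_of_isUnramifiedAt H (Ideal.primeCompl_le_nonZeroDivisors 𝔏)
  -- from `𝓞 L` to `L`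
  ext y
  obtain ⟨a, b, hb, rfl⟩ := IsFractionRing.div_surjective (A := 𝓞 L) y
  have ha : τ' (a : L) = τ (a : L) := by
    have := congrArg (fun f => ((f a : 𝓞 L) : L)) heq
    exact this
  have hb' : τ' (b : L) = τ (b : L) := by
    have := congrArg (fun f => ((f b : 𝓞 L) : L)) heq
    exact this
  show τ' (algebraMap (𝓞 L) L a / algebraMap (𝓞 L) L b) = τ (algebraMap (𝓞 L) L a / algebraMap (𝓞 L) L b)
  rw [map_div₀, map_div₀]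
  show τ' (a : L) / τ' (b : L) = τ (a : L) / τ (b : L)
  rw [ha, hb']


/-- **[CHEB-PP], absolute form with uniqueness.** As `exists_frob_generates_zpowers`, with `ℓ`
moreover prime to the discriminant of `L`, so that `τ` is THE Frobenius element at `𝔏`. -/
theorem exists_frob_generates_zpowers_unique (σ : L ≃ₐ[ℚ] L) {r k : ℕ} (hr : r.Prime)
    (hk : 0 < k) (hσ : orderOf σ = r ^ k) (S : Finset ℕ) :
    ∃ (ℓ : ℕ) (𝔏 : Ideal (𝓞 L)) (τ : L ≃ₐ[ℚ] L),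
      ℓ.Prime ∧ ℓ ∉ S ∧ ¬ (ℓ : ℤ) ∣ NumberField.discr L ∧ 𝔏.IsPrime ∧ (ℓ : 𝓞 L) ∈ 𝔏 ∧
      (∀ x : 𝓞 L, τ • x - x ^ ℓ ∈ 𝔏) ∧
      (∀ τ' : L ≃ₐ[ℚ] L, (∀ x : 𝓞 L, τ' • x - x ^ ℓ ∈ 𝔏) → τ' = τ) ∧
      Subgroup.zpowers τ = Subgroup.zpowers σ := by
  obtain ⟨ℓ, 𝔏, τ, hℓ, hℓS, h𝔏, hℓ𝔏, hτ, hgen⟩ :=
    exists_frob_generates_zpowers σ hr hk hσ (S ∪ (NumberField.discr L).natAbs.primeFactors)
  have hS : ℓ ∉ S := fun h => hℓS (Finset.mem_union_left _ h)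
  have hdisc : ¬ (ℓ : ℤ) ∣ NumberField.discr L := by
    intro hd
    apply hℓS
    apply Finset.mem_union_right
    rw [Nat.mem_primeFactors]
    refine ⟨hℓ, ?_, ?_⟩
    · exact Int.natCast_dvd.mp hd
    · exact Int.natAbs_ne_zero.mpr (NumberField.discr_ne_zero L)
  exact ⟨ℓ, 𝔏, τ, hℓ, hS, hdisc, h𝔏, hℓ𝔏, hτ,
    fun τ' hτ' => frob_unique hℓ hdisc h𝔏 hℓ𝔏 hτ hτ', hgen⟩

end Fermat.Agent.S41.Cheb46
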