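/-
S41 / [CHEB-PP] bridge (helper46): helper44's plug `NonEis44.ChebPP E p` (weak Chebotarev for the
elements of `Gal(ℚ̄/ℚ)` acting with prime-power order on `E[p](ℚ̄)`, in Prelude vocabulary:
valuation subrings of `ℚ̄`, `IsFrobeniusAt`) from the finite-level theorem
`Cheb46.exists_frob_generates_zpowers_unique`.

* `exists_galois_fixing` : a finite Galois `L₀/ℚ` in `ℚ̄` trivialising `E[p](ℚ̄)` (landed S13 `Gal`).
* `sub_pow_mem_center_of_isFrobeniusAt`, `exists_frobenius_lift` : every prime `𝔏 ∋ ℓ` of `𝓞 L₀` lies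
  under a valuation subring `A` of `ℚ̄` having a Frobenius element whose restriction to `L₀` is a
  Frobenius element at `𝔏` (landed `Lib.InertiaGenerate`, `Lib.FrobeniusExists`).
* `chebPP_of_finite` : `[Finite (Tors E p)] → ChebPP E p`.
-/
import Mathlib
import Fermat.Agent.S41.Cheb46.FrobAbs
import Fermat.Agent.S41.NonEis44.Assembly
import Fermat.Agent.S13.Gal
import Fermat.Agent.Lib.InertiaGenerate

set_option autoImplicit false
set_option linter.style.haveILetI false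

namespace Fermat.Agent.S41.Cheb46

open scoped NumberField Pointwise
open IntermediateField
open Fermat.Agent.Lib.FrobeniusExists Fermat.Agent.Lib.InertiaGenerate
open Fermat.Agent.S41.NonEis44 (Tors ChebPP)

attribute [local instance] isAlgebraic_Qb isAlgClosure_Qb isGalois_Qb

/-- A Frobenius element of a valuation subring `A` of `ℚ̄` acts as `b ↦ b^ℓ` on `ℤ̄` modulo the
centre of `A`. -/
theorem sub_pow_mem_center_of_isFrobeniusAt {A : ValuationSubring Qb} {φ : GQ} {ℓ : ℕ}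
    (hφ : A.IsFrobeniusAt φ ℓ) (b : Zb) : φ • b - b ^ ℓ ∈ center A := by
  rw [mem_center]
  obtain ⟨hdec, hres⟩ := hφ
  set g : A.decompositionSubgroup ℚ := ⟨φ, hdec⟩ with hg
  have h1 := hres (IsLocalRing.residue A (toA A b))
  rw [← IsLocalRing.ResidueField.residue_smul, ← map_pow, ← sub_eq_zero, ← map_sub,
    IsLocalRing.residue_eq_zero_iff, ← ValuationSubring.coe_mem_nonunits_iff] at h1
  exact h1

section Lift

variable (K : IntermediateField ℚ Qb) [FiniteDimensional ℚ K] [IsGalois ℚ K]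

attribute [local instance] numberField_K algOK

/-- Every prime `𝔏 ∋ ℓ` of `𝓞 K` (`K/ℚ` finite Galois inside `ℚ̄`) lies under a valuation subring
`A` of `ℚ̄` over `ℓ` having a Frobenius element `φ ∈ Gal(ℚ̄/ℚ)` whose restriction to `K` is a
Frobenius element at `𝔏`. -/
theorem exists_frobenius_lift {ℓ : ℕ} (hℓ : ℓ.Prime) (𝔏 : Ideal (𝓞 K)) [h𝔏 : 𝔏.IsPrime]
    (hℓ𝔏 : ((ℓ : ℕ) : 𝓞 K) ∈ 𝔏) :
    ∃ (A : ValuationSubring Qb) (φ : GQ), A.LiesOverPrime ℓ ∧ A.IsFrobeniusAt φ ℓ ∧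
      ∀ x : 𝓞 K, (AlgEquiv.restrictNormalHom K φ) • x - x ^ ℓ ∈ 𝔏 := by
  have h𝔏0 : 𝔏 ≠ ⊥ := by
    intro h
    rw [h, Ideal.mem_bot] at hℓ𝔏
    exact hℓ.ne_zero (by exact_mod_cast hℓ𝔏)
  obtain ⟨q, A, -, -, hA𝔏⟩ := exists_valuationSubring_under_eq K 𝔏 h𝔏0
  have hAℓ : A.LiesOverPrime ℓ := by
    have h1 := hℓ𝔏
    rw [← hA𝔏, Ideal.mem_comap, algebraMap_OK_apply, mem_center] at h1
    have h2 : ((ιK K ((ℓ : ℕ) : 𝓞 K) : Zb) : Qb) = (ℓ : Qb) := by
      rw [coe_ιK]; simp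
    rw [h2] at h1
    exact h1
  obtain ⟨φ, hφ⟩ := exists_isFrobeniusAt A hℓ hAℓ
  refine ⟨A, φ, hAℓ, hφ, fun x => ?_⟩
  rw [← hA𝔏, Ideal.mem_comap, map_sub, map_pow, algebraMap_OK_apply, algebraMap_OK_apply,
    ιK_smul]
  exact sub_pow_mem_center_of_isFrobeniusAt hφ _

end Lift

variable (E : WeierstrassCurve ℚ) (p : ℕ)

/-- A finite GALOIS extension `L₀/ℚ` inside `ℚ̄` whose absolute Galois group acts trivially on
`E[p](ℚ̄)`. -/
theorem exists_galois_fixing [Finite (Tors E p)] :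
    ∃ L₀ : IntermediateField ℚ Qb, FiniteDimensional ℚ L₀ ∧ Normal ℚ L₀ ∧
      ∀ σ ∈ L₀.fixingSubgroup, ∀ x : Tors E p, σ • x = x := by
  obtain ⟨M, hMfin, hM⟩ := Fermat.Agent.S13.Gal.exists_finite_fixing (W' := E) p
  refine ⟨normalClosure ℚ M Qb, normalClosure.is_finiteDimensional ℚ M Qb,
    normalClosure.normal ℚ M Qb, fun σ hσ x => hM σ ?_ x⟩
  exact IntermediateField.fixingSubgroup_antitone M.le_normalClosure hσ

/-- **[CHEB-PP] in Prelude vocabulary** (helper44's plug `ChebPP`). -/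
theorem chebPP_of_finite [Finite (Tors E p)] : ChebPP E p := by
  classical
  rintro σ ⟨r, k, hr, hσ⟩ B
  obtain ⟨L₀, hfd, hnorm, hfix⟩ := exists_galois_fixing E p
  haveI := hfd
  haveI := hnorm
  haveI : IsGalois ℚ L₀ := { to_isSeparable := inferInstance, to_normal := hnorm }
  haveI : NumberField L₀ := numberField_K L₀
  set ρ : GQ →* (L₀ ≃ₐ[ℚ] L₀) := AlgEquiv.restrictNormalHom L₀ with hρ
  -- the action on `E[p]` factors through `ρ`
  have hfac : ∀ g g' : GQ, ρ g = ρ g' → ∀ P : Tors E p, g • P = g' • P := by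
    intro g g' h P
    have hmem : g'⁻¹ * g ∈ L₀.fixingSubgroup := by
      rw [IntermediateField.mem_fixingSubgroup_iff]
      intro x hx
      have h1 := AlgEquiv.restrictNormal_commutes g L₀ ⟨x, hx⟩
      have h2 := AlgEquiv.restrictNormal_commutes g' L₀ ⟨x, hx⟩
      have h3 : g.restrictNormal L₀ = g'.restrictNormal L₀ := h
      rw [h3, h2] at h1
      have h4 : g' x = g x := h1
      show g'⁻¹ (g x) = x
      rw [← h4]
      exact g'.symm_apply_apply x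
    have h1 := hfix _ hmem P
    rw [mul_smul, inv_smul_eq_iff] at h1
    exact h1
  -- replace `σ` by a power with the same action and `r`-power order in `Gal(L₀/ℚ)`
  obtain ⟨a, m', hm'r, hm⟩ :=
    Nat.exists_eq_pow_mul_and_not_dvd (orderOf_pos (ρ σ)).ne' r hr.ne_one
  have hcop : Nat.Coprime (r ^ k) m' :=
    Nat.Coprime.pow_left k ((Nat.Prime.coprime_iff_not_dvd hr).mpr hm'r)
  obtain ⟨c, hc1, hc0⟩ := Nat.chineseRemainder hcop 1 0
  have hm'c : m' ∣ c := (Nat.modEq_zero_iff_dvd).mp hc0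
  have hact : ∀ P : Tors E p, σ ^ c • P = σ • P := by
    set ψ := MulAction.toPermHom GQ (Tors E p) with hψ
    have h1 : (ψ σ) ^ (r ^ k) = 1 := by
      rw [← map_pow]
      ext P
      exact congrArg Subtype.val (hσ P)
    have h2 : orderOf (ψ σ) ∣ r ^ k := orderOf_dvd_of_pow_eq_one h1
    have h3 : (ψ σ) ^ c = (ψ σ) ^ 1 := pow_eq_pow_iff_modEq.mpr (hc1.of_dvd h2)
    intro P
    have h4 := congrArg (fun f : Equiv.Perm (Tors E p) => f P) h3
    simp only [pow_one, ← map_pow] at h4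
    exact h4
  set σ₁ : L₀ ≃ₐ[ℚ] L₀ := ρ σ ^ c with hσ₁
  have hσ₁ρ : σ₁ = ρ (σ ^ c) := by rw [hσ₁, map_pow]
  have hord : orderOf σ₁ ∣ r ^ a := by
    apply orderOf_dvd_of_pow_eq_one
    rw [hσ₁, ← pow_mul]
    apply orderOf_dvd_iff_pow_eq_one.mp
    rw [hm]
    obtain ⟨t, rfl⟩ := hm'c
    exact ⟨t, by ring⟩
  obtain ⟨j, -, hj⟩ := (Nat.dvd_prime_pow hr).mp hord
  rcases Nat.eq_zero_or_pos j with hj0 | hjpos
  · -- `σ` acts trivially: any prime outside `B` works, with `n = 0`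
    rw [hj0, pow_zero, orderOf_eq_one_iff] at hj
    have htriv : ∀ P : Tors E p, σ • P = P := by
      intro P
      rw [← hact P]
      have := hfac (σ ^ c) 1 (by rw [← hσ₁ρ, hj, map_one]) P
      rwa [one_smul] at this
    obtain ⟨ℓ, hℓge, hℓ⟩ := Nat.exists_infinite_primes (B.sup id + 1)
    have hℓB : ℓ ∉ B := by
      intro h
      have : ℓ ≤ B.sup id := Finset.le_sup (f := id) h
      omega
    obtain ⟨A, φ, hA, hφ⟩ := exists_frobenius hℓ
    exact ⟨ℓ, hℓ, hℓB, A, hA, φ, hφ, 0, fun P => by rw [pow_zero, one_smul, htriv P]⟩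
  · -- Chebotarev at finite level
    obtain ⟨ℓ, 𝔏, τ, hℓ, hℓB, -, h𝔏, hℓ𝔏, -, huniq, hgen⟩ :=
      exists_frob_generates_zpowers_unique σ₁ hr hjpos hj B
    haveI := h𝔏
    obtain ⟨A, φ, hA, hφ, hφ𝔏⟩ := exists_frobenius_lift L₀ hℓ 𝔏 hℓ𝔏
    have hτ : ρ φ = τ := huniq (ρ φ) hφ𝔏
    have hmem : σ₁ ∈ Subgroup.zpowers (ρ φ) := by
      rw [hτ, hgen]
      exact Subgroup.mem_zpowers σ₁
    rw [← mem_powers_iff_mem_zpowers, Submonoid.mem_powers_iff] at hmem
    obtain ⟨n, hn⟩ := hmem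
    refine ⟨ℓ, hℓ, hℓB, A, hA, φ, hφ, n, fun P => ?_⟩
    rw [← hact P]
    exact hfac (σ ^ c) (φ ^ n) (by rw [← hσ₁ρ, map_pow, hn]) P

end Fermat.Agent.S41.Cheb46
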